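import Fermat.Agent.S24.Deg.H528Frac

/-!
# S24 / M6-ABS (helper528): adapters for `E = K⟮j⟯` and finite orbits

* `finiteOrbitSubring`: the elements of a ring with finite `G`-orbit form a `G`-stable subring.
* `smul_eq_of_mem_adjoin_simple`: if `e j` and the constants are `G`-invariant then all of
  `e (K⟮j⟯)` is `G`-invariant.
* `exists_adjoin_simple_of_polynomial`: a polynomial expression in `e j` comes from `K⟮j⟯`.
* `finrank_adjoin_simple_eq_card_quotient`: the degree formula with `E = K⟮j⟯`.
-/

set_option autoImplicit false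

noncomputable section

namespace Fermat.Agent.S24.H528

open IntermediateField

section FiniteOrbit

variable (G : Type*) (A : Type*) [Group G] [CommRing A] [MulSemiringAction G A]

/-- The subring of elements with finite `G`-orbit. -/
def finiteOrbitSubring : Subring A where
  carrier := {a | (MulAction.orbit G a).Finite}
  mul_mem' := by
    intro a b ha hb
    refine (Set.Finite.image2 (fun x y => x * y) ha hb).subset ?_
    rintro _ ⟨g, rfl⟩
    exact ⟨g • a, ⟨g, rfl⟩, g • b, ⟨g, rfl⟩, (smul_mul' g a b).symm⟩
  one_mem' := by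
    refine (Set.finite_singleton (1 : A)).subset ?_
    rintro _ ⟨g, rfl⟩
    exact smul_one g
  add_mem' := by
    intro a b ha hb
    refine (Set.Finite.image2 (fun x y => x + y) ha hb).subset ?_
    rintro _ ⟨g, rfl⟩
    exact ⟨g • a, ⟨g, rfl⟩, g • b, ⟨g, rfl⟩, (smul_add g a b).symm⟩
  zero_mem' := by
    refine (Set.finite_singleton (0 : A)).subset ?_
    rintro _ ⟨g, rfl⟩
    exact smul_zero g
  neg_mem' := by
    intro a ha
    refine (ha.image (fun x => -x)).subset ?_
    rintro _ ⟨g, rfl⟩
    exact ⟨g • a, ⟨g, rfl⟩, (smul_neg g a).symm⟩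

variable {G A}

theorem mem_finiteOrbitSubring {a : A} :
    a ∈ finiteOrbitSubring G A ↔ (MulAction.orbit G a).Finite := Iff.rfl

theorem smul_mem_finiteOrbitSubring {a : A} (ha : a ∈ finiteOrbitSubring G A) (g : G) :
    g • a ∈ finiteOrbitSubring G A := by
  rw [mem_finiteOrbitSubring] at ha ⊢
  rwa [MulAction.orbit_smul]

/-- Everything in the subring generated by elements with finite orbits has finite orbit. -/
theorem finite_orbit_of_mem_closure {S : Set A} (hS : ∀ s ∈ S, (MulAction.orbit G s).Finite)
    {a : A} (ha : a ∈ Subring.closure S) : (MulAction.orbit G a).Finite :=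
  (Subring.closure_le (t := finiteOrbitSubring G A)).2 hS ha

/-- An element fixed by a finite-index subgroup has finite orbit. -/
theorem finite_orbit_of_fixed_by_finiteIndex (Γ : Subgroup G) [Γ.FiniteIndex] (a : A)
    (ha : ∀ γ ∈ Γ, γ • a = a) : (MulAction.orbit G a).Finite := by
  have : Finite (G ⧸ Γ) := Subgroup.finite_quotient_of_finiteIndex
  let f : G ⧸ Γ → A := Quotient.lift (fun g : G => g • a) (by
    intro x y hxy
    have h : x⁻¹ * y ∈ Γ := QuotientGroup.leftRel_apply.mp hxy
    calc x • a = x • ((x⁻¹ * y) • a) := by rw [ha _ h]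
      _ = y • a := by rw [smul_smul, mul_inv_cancel_left])
  refine (Set.finite_range f).subset ?_
  rintro _ ⟨g, rfl⟩
  exact ⟨(g : G ⧸ Γ), rfl⟩

end FiniteOrbit

section AdjoinSimple

variable {G K F M : Type*} [Group G] [Field K] [Field F] [Algebra K F] [Field M]
  [MulSemiringAction G M]

/-- If the constants and `e j` are `G`-invariant then so is `e x` for every `x ∈ K⟮j⟯`. -/
theorem smul_eq_of_mem_adjoin_simple (e : F →+* M) (j : F)
    (hK : ∀ c : K, ∀ g : G, g • e (algebraMap K F c) = e (algebraMap K F c))
    (hj : ∀ g : G, g • e j = e j) (x : K⟮j⟯) (g : G) :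
    g • e (algebraMap K⟮j⟯ F x) = e (algebraMap K⟮j⟯ F x) := by
  let S : IntermediateField K F :=
    { carrier := {y | ∀ g : G, g • e y = e y}
      mul_mem' := fun {a b} ha hb g => by rw [map_mul, smul_mul', ha g, hb g]
      one_mem' := fun g => by rw [map_one, smul_one]
      add_mem' := fun {a b} ha hb g => by rw [map_add, smul_add, ha g, hb g]
      zero_mem' := fun g => by rw [map_zero, smul_zero]
      algebraMap_mem' := fun c g => hK c g
      inv_mem' := fun a ha g => by rw [map_inv₀, smul_inv'', ha g] }
  have hle : K⟮j⟯ ≤ S := by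
    rw [IntermediateField.adjoin_simple_le_iff]
    exact hj
  exact hle x.2 g

variable {C : Type*} [Field C] [Algebra C M]

/-- A polynomial expression (with coefficients from `K`) in `e j` comes from `K⟮j⟯`. -/
theorem exists_adjoin_simple_of_polynomial (e : F →+* M) (ι : K →+* C)
    (he : ∀ c : K, e (algebraMap K F c) = algebraMap C M (ι c)) (j : F)
    (P : Polynomial K) :
    ∃ x : K⟮j⟯, e (algebraMap K⟮j⟯ F x) =
      Polynomial.eval₂ ((algebraMap C M).comp ι) (e j) P := by
  refine ⟨Polynomial.aeval (IntermediateField.AdjoinSimple.gen K j) P, ?_⟩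
  have h1 : algebraMap K⟮j⟯ F (Polynomial.aeval (IntermediateField.AdjoinSimple.gen K j) P)
      = Polynomial.aeval j P := by
    rw [← Polynomial.aeval_algebraMap_apply, IntermediateField.AdjoinSimple.algebraMap_gen]
  rw [h1, Polynomial.aeval_def, Polynomial.hom_eval₂]
  congr 1
  ext c
  exact he c

end AdjoinSimple

section Main

variable {G A L : Type*} [Group G] [CommRing A] [IsDomain A] [MulSemiringAction G A]
  [Field L] [Algebra A L] [IsFractionRing A L] [MulSemiringAction G L] [SMulDistribClass G A L]
variable {K F C : Type*} [Field K] [Field F] [Algebra K F] [Field C] [Algebra C L]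

/-- **Degree formula for `E = K⟮j⟯`** (M6-ABS, final form).

`A` is a domain of "functions" with `G`-action and finite orbits, `L` its fraction field,
`e : F →+* L` is an embedding with `H`-invariant image sending constants `c : K` to constants
`ι c : C` and `j` to a `G`-invariant element; every `G`-invariant element of `A` is a polynomial
in `e j` with coefficients in `ι K`; some `θ : F` has `Stab_G (e θ) ≤ H`.
Then `[F : K⟮j⟯] = |G ⧸ H|`. -/
theorem finrank_adjoin_simple_eq_card_quotient
    (H : Subgroup G) [H.FiniteIndex] (e : F →+* L) (ι : K →+* C)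
    (he : ∀ c : K, e (algebraMap K F c) = algebraMap C L (ι c))
    (hC : ∀ (c : C) (g : G), g • algebraMap C L c = algebraMap C L c)
    (j : F) (hj : ∀ g : G, g • e j = e j)
    (hfin : ∀ a : A, (MulAction.orbit G a).Finite)
    (hinv : ∀ f : F, ∀ g ∈ H, g • e f = e f)
    (hpoly : ∀ a : A, (∀ g : G, g • a = a) → ∃ P : Polynomial K,
      algebraMap A L a = Polynomial.eval₂ ((algebraMap C L).comp ι) (e j) P)
    (θ : F) (hθ : ∀ g : G, g • e θ = e θ → g ∈ H) :
    Module.Finite K⟮j⟯ F ∧ Module.finrank K⟮j⟯ F = Nat.card (G ⧸ H) := by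
  refine finrank_eq_card_quotient_of_ring (E := K⟮j⟯) H e hfin hinv ?_ ?_ θ hθ
  · intro a ha
    obtain ⟨P, hP⟩ := hpoly a ha
    obtain ⟨x, hx⟩ := exists_adjoin_simple_of_polynomial e ι he j P
    exact ⟨x, by rw [hx, hP]⟩
  · intro x g
    exact smul_eq_of_mem_adjoin_simple e j (fun c g => by rw [he c, hC]) hj x g

end Main

end Fermat.Agent.S24.H528
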