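import Mathlib

/-!
# S24 / M6-ABS (helper528): abstract degree bounds from a group action

Pure algebra, Mathlib only.  `G` acts on a field `M` by ring automorphisms, `H ≤ G` has finite
index.  If `e : F →+* M` lands in the `H`-invariants and every `G`-invariant element of `M`
comes from `E` (a field with `[Algebra E F]`), then `F` is finite over `E` of degree `≤ [G : H]`
(Artin's argument; `G` itself need not be finite).  If moreover the image of `E` is `G`-invariant
and some `θ : F` has stabiliser of `e θ` contained in `H`, then the degree is exactly `[G : H]`.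
-/

set_option autoImplicit false

noncomputable section

namespace Fermat.Agent.S24.H528

open Module

section Artin

variable {G M : Type*} [Group G] [Field M] [MulSemiringAction G M]

/-- Artin's bound, family version: a family of `H`-invariant elements of `M` which is linearly
independent over the `G`-fixed subfield has at most `[G : H]` members. -/
theorem card_le_index_of_linearIndependent (H : Subgroup G) [H.FiniteIndex]
    {ι : Type*} [Fintype ι] (v : ι → M)
    (hv : LinearIndependent (FixedPoints.subfield G M) v)
    (hH : ∀ i, ∀ g ∈ H, g • v i = v i) :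
    Fintype.card ι ≤ H.index := by
  classical
  have hinj : Function.Injective v := hv.injective
  -- Mathlib's Artin lemma, applied to the finite set `image v univ`
  have h1 : LinearIndepOn (FixedPoints.subfield G M) id
      ((Finset.univ.image v : Finset M) : Set M) := by
    have := hv.linearIndepOn_id
    simpa using this
  have h2 := FixedPoints.linearIndependent_smul_of_linearIndependent G M h1
  -- transport back to the index type `ι`
  have h3 : LinearIndependent M (fun i : ι => MulAction.toFun G M (v i)) := by
    have h4 : LinearIndepOn M (MulAction.toFun G M) (Set.range v) := by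
      simpa using h2
    exact (linearIndepOn_range_iff hinj _).1 h4
  -- the functions `g ↦ g • v i` factor through `G ⧸ H`
  have : Finite (G ⧸ H) := Subgroup.finite_quotient_of_finiteIndex
  have : Fintype (G ⧸ H) := Fintype.ofFinite _
  let P : ((G ⧸ H) → M) →ₗ[M] (G → M) :=
    LinearMap.funLeft M M (fun g : G => (g : G ⧸ H))
  let ψ : ι → ((G ⧸ H) → M) := fun i =>
    Quotient.lift (fun g : G => g • v i) (by
      intro a b hab
      have hab' : a⁻¹ * b ∈ H := QuotientGroup.leftRel_apply.mp hab
      have := hH i _ hab'
      calc a • v i = a • ((a⁻¹ * b) • v i) := by rw [this]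
        _ = b • v i := by rw [smul_smul, mul_inv_cancel_left])
  have hP : (fun i : ι => MulAction.toFun G M (v i)) = P ∘ ψ := by
    funext i g
    rfl
  rw [hP] at h3
  have h6 : LinearIndependent M ψ := LinearIndependent.of_comp P h3
  have h7 := h6.fintype_card_le_finrank
  have h8 : finrank M ((G ⧸ H) → M) = H.index := by
    rw [Module.finrank_pi, Subgroup.index_eq_card, Nat.card_eq_fintype_card]
  omega

/-- Transfer of linear independence along `e : F →+* M` when all `G`-invariants of `M` come
from `E`. -/
theorem linearIndependent_fixedPoints_of_linearIndependent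
    {E F : Type*} [Field E] [Field F] [Algebra E F] (e : F →+* M)
    (hKL : ∀ h : M, (∀ g : G, g • h = h) → ∃ x : E, e (algebraMap E F x) = h)
    {ι : Type*} (v : ι → F) (hv : LinearIndependent E v) :
    LinearIndependent (FixedPoints.subfield G M) (fun i => e (v i)) := by
  classical
  rw [linearIndependent_iff']
  intro s c hc i hi
  have hx : ∀ j : ι, ∃ x : E, e (algebraMap E F x) = (c j : M) := fun j => hKL _ (c j).2
  choose x hx using hx
  have h1 : e (∑ j ∈ s, x j • v j) = 0 := by
    rw [map_sum, ← hc]
    refine Finset.sum_congr rfl fun j _ => ?_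
    rw [Algebra.smul_def, map_mul, hx j]
    rfl
  have h2 : ∑ j ∈ s, x j • v j = 0 := e.injective (by rw [h1, map_zero])
  have h3 := linearIndependent_iff'.1 hv s x h2 i hi
  apply Subtype.ext
  rw [← hx i, h3, map_zero, map_zero]
  rfl

/-- **Upper bound** `[F : E] ≤ [G : H]` (Artin).  `G` may be infinite. -/
theorem finite_and_finrank_le_index
    {E F : Type*} [Field E] [Field F] [Algebra E F]
    (H : Subgroup G) [H.FiniteIndex] (e : F →+* M)
    (hinv : ∀ f : F, ∀ g ∈ H, g • e f = e f)
    (hKL : ∀ h : M, (∀ g : G, g • h = h) → ∃ x : E, e (algebraMap E F x) = h) :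
    Module.Finite E F ∧ Module.finrank E F ≤ H.index := by
  classical
  have hrank : Module.rank E F ≤ (H.index : ℕ) := by
    refine rank_le fun s hs => ?_
    have hs' : LinearIndependent E (fun x : (s : Set F) => (x : F)) := hs
    have h1 := linearIndependent_fixedPoints_of_linearIndependent (G := G) e hKL _ hs'
    have h2 := card_le_index_of_linearIndependent H (fun x : (s : Set F) => e (x : F)) h1
      (fun i g hg => hinv _ g hg)
    simpa using h2
  have hfin : Module.Finite E F :=
    Module.rank_lt_aleph0_iff.1 (hrank.trans_lt (Cardinal.natCast_lt_aleph0))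
  refine ⟨hfin, ?_⟩
  exact Module.finrank_le_of_rank_le hrank

/-- **Lower bound** `[G : H] ≤ [F : E]`: the image of `E` is `G`-invariant and some `θ : F` has
`Stab_G (e θ) ≤ H`; the conjugates `g • e θ` are then at least `[G : H]` distinct roots of the
minimal polynomial of `θ` over `E`. -/
theorem index_le_finrank
    {E F : Type*} [Field E] [Field F] [Algebra E F] [Module.Finite E F]
    (H : Subgroup G) (e : F →+* M)
    (hE : ∀ x : E, ∀ g : G, g • e (algebraMap E F x) = e (algebraMap E F x))
    (θ : F) (hθ : ∀ g : G, g • e θ = e θ → g ∈ H) :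
    H.index ≤ Module.finrank E F := by
  classical
  set σ : E →+* M := e.comp (algebraMap E F) with hσ
  set p := minpoly E θ with hp
  have hint : IsIntegral E θ := Algebra.IsIntegral.isIntegral θ
  have hp0 : p ≠ 0 := minpoly.ne_zero hint
  have hq0 : p.map σ ≠ 0 := (Polynomial.map_ne_zero_iff σ.injective).2 hp0
  -- every conjugate is a root
  have hroot : ∀ g : G, g • e θ ∈ (p.map σ).roots.toFinset := by
    intro g
    rw [Multiset.mem_toFinset, Polynomial.mem_roots hq0, Polynomial.IsRoot, Polynomial.eval_map]
    have h1 : (MulSemiringAction.toRingHom G M g).comp σ = σ := by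
      ext x
      exact hE x g
    have h2 : p.eval₂ σ (e θ) = 0 := by
      have h3 : p.eval₂ (algebraMap E F) θ = 0 := by
        have := minpoly.aeval E θ
        rwa [Polynomial.aeval_def] at this
      have h4 := Polynomial.hom_eval₂ p (algebraMap E F) e θ
      rw [h3, map_zero] at h4
      exact h4.symm
    have h5 := Polynomial.hom_eval₂ p σ (MulSemiringAction.toRingHom G M g) (e θ)
    rw [h2, map_zero, h1] at h5
    exact h5.symm
  -- the orbit is finite, of cardinality `≤ deg p`
  have horb : MulAction.orbit G (e θ) ⊆ ((p.map σ).roots.toFinset : Set M) := by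
    rintro _ ⟨g, rfl⟩
    exact hroot g
  have hfin : (MulAction.orbit G (e θ)).Finite := (Finset.finite_toSet _).subset horb
  have hcard : (MulAction.orbit G (e θ)).ncard ≤ p.natDegree := by
    calc (MulAction.orbit G (e θ)).ncard
        ≤ ((p.map σ).roots.toFinset : Set M).ncard := Set.ncard_le_ncard horb
      _ = (p.map σ).roots.toFinset.card := Set.ncard_coe_finset _
      _ ≤ Multiset.card (p.map σ).roots := Multiset.toFinset_card_le _
      _ ≤ (p.map σ).natDegree := Polynomial.card_roots' _
      _ = p.natDegree := Polynomial.natDegree_map_eq_of_injective σ.injective p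
  have hne : (MulAction.orbit G (e θ)).ncard ≠ 0 := by
    rw [Ne, Set.ncard_eq_zero hfin]
    exact Set.Nonempty.ne_empty ⟨_, MulAction.mem_orbit_self (e θ)⟩
  have hstab : MulAction.stabilizer G (e θ) ≤ H := fun g hg => hθ g hg
  have hdvd : H.index ∣ (MulAction.stabilizer G (e θ)).index := Subgroup.index_dvd_of_le hstab
  rw [MulAction.index_stabilizer] at hdvd
  have h6 : H.index ≤ (MulAction.orbit G (e θ)).ncard :=
    Nat.le_of_dvd (Nat.pos_of_ne_zero hne) hdvd
  have h7 : p.natDegree ≤ Module.finrank E F := minpoly.natDegree_le θ
  omega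

/-- **Degree formula** `[F : E] = [G : H]`. -/
theorem finrank_eq_index
    {E F : Type*} [Field E] [Field F] [Algebra E F]
    (H : Subgroup G) [H.FiniteIndex] (e : F →+* M)
    (hinv : ∀ f : F, ∀ g ∈ H, g • e f = e f)
    (hKL : ∀ h : M, (∀ g : G, g • h = h) → ∃ x : E, e (algebraMap E F x) = h)
    (hE : ∀ x : E, ∀ g : G, g • e (algebraMap E F x) = e (algebraMap E F x))
    (θ : F) (hθ : ∀ g : G, g • e θ = e θ → g ∈ H) :
    Module.Finite E F ∧ Module.finrank E F = Nat.card (G ⧸ H) := by
  obtain ⟨hfin, hle⟩ := finite_and_finrank_le_index (E := E) H e hinv hKL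
  refine ⟨hfin, ?_⟩
  have hge := index_le_finrank (E := E) H e hE θ hθ
  rw [← Subgroup.index_eq_card]
  omega

end Artin

end Fermat.Agent.S24.H528
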