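import Mathlib
import Fermat.Prelude.Def_ModularCurve_X0ModL

/-!
# S24 / M6-ABS (helper528): coefficient control for polynomials in `j`

Purely formal.  If `P ∈ C[X]` and the Laurent series `P(j)` (with `j = jqModC C = q⁻¹ + ⋯`) has all
its coefficients in the range of a field (or ring) embedding `ι : K →+* C`, then `P` has
coefficients in `ι K`.  Also: `P(j) = 0 → P = 0` (transcendence of `j` over the constants).
-/

set_option autoImplicit false

noncomputable section

namespace Fermat.Agent.S24.H528

open ModularCurve Polynomial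

section CC

variable {C : Type*} [CommRing C]

/-- The value `P(j)` as a Laurent series. -/
def evalJ (P : Polynomial C) : LaurentSeries C :=
  Polynomial.eval₂ (HahnSeries.C : C →+* LaurentSeries C) (jqModC C) P

theorem evalJ_def (P : Polynomial C) :
    evalJ P = Polynomial.eval₂ (HahnSeries.C : C →+* LaurentSeries C) (jqModC C) P := rfl

theorem coeff_C_mul_jqModC_pow (a : C) (i : ℕ) (n : ℤ) :
    ((HahnSeries.C a : LaurentSeries C) * jqModC C ^ i).coeff n
      = a * (jqModC C ^ i).coeff n := by
  rw [HahnSeries.C_mul_eq_smul, HahnSeries.coeff_smul, smul_eq_mul]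

/-- The coefficient of `q^(-d)` in `P(j)` is the `d`-th coefficient of `P` when `deg P ≤ d`. -/
theorem coeff_evalJ_neg (P : Polynomial C) (d : ℕ) (hd : P.natDegree ≤ d) :
    (evalJ P).coeff (-(d : ℤ)) = P.coeff d := by
  rw [evalJ_def, Polynomial.eval₂_eq_sum_range' _ (Nat.lt_succ_of_le hd), HahnSeries.coeff_sum,
    Finset.sum_eq_single d]
  · rw [coeff_C_mul_jqModC_pow, coeff_jqModC_pow_self, mul_one]
  · intro i hi hne
    have hi' : i < d := lt_of_le_of_ne (Nat.lt_succ_iff.mp (Finset.mem_range.mp hi)) hne
    rw [coeff_C_mul_jqModC_pow, coeff_jqModC_pow_of_lt C (by omega), mul_zero]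
  · intro h
    exact absurd (Finset.mem_range.mpr (Nat.lt_succ_self d)) h

/-- `j` is transcendental over the constants: `P(j) = 0 → P = 0`. -/
theorem eq_zero_of_evalJ_eq_zero (P : Polynomial C) (h : evalJ P = 0) : P = 0 := by
  by_contra hP
  have h1 := coeff_evalJ_neg P P.natDegree le_rfl
  rw [h, HahnSeries.coeff_zero] at h1
  exact hP (Polynomial.leadingCoeff_eq_zero.mp h1.symm)

theorem evalJ_injective : Function.Injective (evalJ (C := C)) := by
  intro P Q h
  have h1 : evalJ (P - Q) = 0 := by
    rw [evalJ_def, Polynomial.eval₂_sub, ← evalJ_def, ← evalJ_def, h, sub_self]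
  exact sub_eq_zero.mp (eq_zero_of_evalJ_eq_zero _ h1)

variable {K : Type*} [CommRing K] (ι : K →+* C)

theorem evalJ_map (Q : Polynomial K) :
    evalJ (Q.map ι) = coeffMap ι (evalJ Q) := by
  rw [evalJ_def, evalJ_def, Polynomial.eval₂_map, Polynomial.hom_eval₂, coeffMap_jqModC]
  congr 1
  ext c n
  simp only [RingHom.comp_apply, coeffMap_coeff, HahnSeries.C_apply, HahnSeries.coeff_single]
  split_ifs <;> simp

/-- **Coefficient control**: if all Laurent coefficients of `P(j)` lie in `ι K` then all
coefficients of `P` lie in `ι K`, i.e. `P = Q.map ι`. -/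
theorem exists_map_eq_of_coeff_evalJ_mem (P : Polynomial C)
    (h : ∀ n : ℤ, (evalJ P).coeff n ∈ Set.range ι) :
    ∃ Q : Polynomial K, Q.map ι = P := by
  induction hd : P.natDegree using Nat.strong_induction_on generalizing P with
  | _ d ih =>
    obtain ⟨c, hc⟩ := h (-(d : ℤ))
    rw [coeff_evalJ_neg P d hd.le] at hc
    rcases Nat.eq_zero_or_pos d with h0 | hpos
    · refine ⟨Polynomial.C c, ?_⟩
      rw [Polynomial.map_C, hc]
      rw [h0] at hd
      rw [h0]
      exact (Polynomial.eq_C_of_natDegree_eq_zero hd).symm
    · -- subtract the leading term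
      set P' := P.eraseLead with hP'
      have hlead : P.leadingCoeff = ι c := by
        rw [Polynomial.leadingCoeff, hd, hc]
      have hdeg : P'.natDegree < d := by
        have hne : P ≠ 0 := by
          intro h0
          rw [h0, Polynomial.natDegree_zero] at hd
          omega
        have := Polynomial.eraseLead_natDegree_lt_or_eraseLead_eq_zero P
        rcases this with h1 | h1
        · rw [hd] at h1; exact h1
        · rw [hP', h1, Polynomial.natDegree_zero]; exact hpos
      have hsplit : P = P' + (Polynomial.C (ι c) * Polynomial.X ^ d) := by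
        have := Polynomial.eraseLead_add_C_mul_X_pow P
        rw [hd, hlead] at this
        exact this.symm
      have hP'coeff : ∀ n : ℤ, (evalJ P').coeff n ∈ Set.range ι := by
        intro n
        have h1 : evalJ P' = evalJ P - coeffMap ι (evalJ (Polynomial.C c * Polynomial.X ^ d)) := by
          rw [← evalJ_map, Polynomial.map_mul, Polynomial.map_C, Polynomial.map_pow,
            Polynomial.map_X]
          conv_rhs => rw [hsplit]
          rw [evalJ_def, evalJ_def, evalJ_def, Polynomial.eval₂_add]
          ring
        rw [h1, HahnSeries.coeff_sub, coeffMap_coeff]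
        obtain ⟨a, ha⟩ := h n
        exact ⟨a - (evalJ (Polynomial.C c * Polynomial.X ^ d)).coeff n, by rw [map_sub, ha]⟩
      obtain ⟨Q', hQ'⟩ := ih P'.natDegree hdeg P' hP'coeff rfl
      refine ⟨Q' + Polynomial.C c * Polynomial.X ^ d, ?_⟩
      rw [Polynomial.map_add, hQ', Polynomial.map_mul, Polynomial.map_C, Polynomial.map_pow,
        Polynomial.map_X]
      exact hsplit.symm

end CC

end Fermat.Agent.S24.H528
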