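import Fermat.Agent.S24.Deg.H528Artin

/-!
# S24 / M6-ABS (helper528): invariants of a fraction field

`G` acts by ring automorphisms on a domain `A` with all orbits finite (e.g. through a finite
quotient).  Then every `G`-invariant element of the fraction field is a quotient of two
`G`-invariant elements of `A` (orbit-product trick).
-/

set_option autoImplicit false

noncomputable section

namespace Fermat.Agent.S24.H528

section Frac

variable {G A L : Type*} [Group G] [CommRing A] [IsDomain A] [MulSemiringAction G A]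
  [Field L] [Algebra A L] [IsFractionRing A L] [MulSemiringAction G L] [SMulDistribClass G A L]

omit [IsDomain A] in
/-- The product over a finite orbit is invariant. -/
theorem smul_prod_orbit (b : A) (hfin : (MulAction.orbit G b).Finite) (g : G) :
    g • (∏ x ∈ hfin.toFinset, x) = ∏ x ∈ hfin.toFinset, x := by
  classical
  rw [Finset.smul_prod']
  refine Finset.prod_bij (fun x _ => g • x) ?_ ?_ ?_ ?_
  · intro x hx
    rw [Set.Finite.mem_toFinset] at hx ⊢
    obtain ⟨k, rfl⟩ := hx
    exact ⟨g * k, mul_smul g k b⟩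
  · intro x _ y _ hxy
    exact smul_left_cancel g hxy
  · intro y hy
    refine ⟨g⁻¹ • y, ?_, by simp⟩
    rw [Set.Finite.mem_toFinset] at hy ⊢
    obtain ⟨k, rfl⟩ := hy
    exact ⟨g⁻¹ * k, mul_smul g⁻¹ k b⟩
  · intro x _
    rfl

/-- **Invariants of the fraction field**: a `G`-invariant fraction is a quotient of
`G`-invariant elements, provided `G`-orbits in `A` are finite. -/
theorem exists_invariant_num_den (hfin : ∀ a : A, (MulAction.orbit G a).Finite)
    (h : L) (hh : ∀ g : G, g • h = h) :
    ∃ a b : A, b ≠ 0 ∧ (∀ g : G, g • a = a) ∧ (∀ g : G, g • b = b) ∧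
      h = algebraMap A L a / algebraMap A L b := by
  classical
  obtain ⟨a0, b0, hb0, rfl⟩ := IsFractionRing.div_surjective A h
  have hb0' : b0 ≠ 0 := nonZeroDivisors.ne_zero hb0
  set O := (hfin b0).toFinset with hO
  have hmem : b0 ∈ O := by
    rw [hO, Set.Finite.mem_toFinset]
    exact MulAction.mem_orbit_self b0
  set c : A := ∏ x ∈ O.erase b0, x with hc
  set b : A := ∏ x ∈ O, x with hb
  have hbc : b = b0 * c := by
    rw [hb, hc, Finset.mul_prod_erase O (fun x => x) hmem]
  have hbne : b ≠ 0 := by
    rw [hb, Finset.prod_ne_zero_iff]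
    intro x hx
    rw [hO, Set.Finite.mem_toFinset] at hx
    obtain ⟨g, rfl⟩ := hx
    intro h0
    apply hb0'
    have h0' : g • b0 = 0 := h0
    have : g⁻¹ • (g • b0) = g⁻¹ • (0 : A) := by rw [h0']
    simpa using this
  have hbinv : ∀ g : G, g • b = b := fun g => smul_prod_orbit b0 (hfin b0) g
  have hinj : Function.Injective (algebraMap A L) := IsFractionRing.injective A L
  have hbL : algebraMap A L b ≠ 0 := by
    intro h0
    exact hbne (hinj (by rw [h0, map_zero]))
  have hb0L : algebraMap A L b0 ≠ 0 := by
    intro h0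
    exact hb0' (hinj (by rw [h0, map_zero]))
  have hquot : algebraMap A L a0 / algebraMap A L b0 =
      algebraMap A L (a0 * c) / algebraMap A L b := by
    rw [div_eq_div_iff hb0L hbL, hbc]
    simp only [map_mul]
    ring
  refine ⟨a0 * c, b, hbne, ?_, hbinv, hquot⟩
  intro g
  apply hinj
  have h1 : algebraMap A L (a0 * c) = (algebraMap A L a0 / algebraMap A L b0) * algebraMap A L b := by
    rw [hquot, div_mul_cancel₀ _ hbL]
  rw [algebraMap.smul', h1, smul_mul', hh g, ← algebraMap.smul', hbinv g]

/-- Ring-level invariants `⊆ e(E)` imply field-level invariants `⊆ e(E)`. -/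
theorem exists_preimage_of_invariant {E F : Type*} [Field E] [Field F] [Algebra E F]
    (e : F →+* L) (hfin : ∀ a : A, (MulAction.orbit G a).Finite)
    (hD5 : ∀ a : A, (∀ g : G, g • a = a) → ∃ x : E, e (algebraMap E F x) = algebraMap A L a)
    (h : L) (hh : ∀ g : G, g • h = h) :
    ∃ x : E, e (algebraMap E F x) = h := by
  obtain ⟨a, b, _, ha, hb, rfl⟩ := exists_invariant_num_den hfin h hh
  obtain ⟨x, hx⟩ := hD5 a ha
  obtain ⟨y, hy⟩ := hD5 b hb
  exact ⟨x / y, by rw [map_div₀, map_div₀, hx, hy]⟩

/-- **Degree formula, ring form** (M6-ABS main theorem).  `A` is a domain with a `G`-action with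
finite orbits, `L` its fraction field with the induced action, `e : F →+* L` has image in the
`H`-invariants, every `G`-invariant element of the ring `A` comes from `E`, the image of `E` is
`G`-invariant, and `θ : F` has `Stab_G (e θ) ≤ H`.  Then `[F : E] = |G ⧸ H|`. -/
theorem finrank_eq_card_quotient_of_ring {E F : Type*} [Field E] [Field F] [Algebra E F]
    (H : Subgroup G) [H.FiniteIndex] (e : F →+* L)
    (hfin : ∀ a : A, (MulAction.orbit G a).Finite)
    (hinv : ∀ f : F, ∀ g ∈ H, g • e f = e f)
    (hD5 : ∀ a : A, (∀ g : G, g • a = a) → ∃ x : E, e (algebraMap E F x) = algebraMap A L a)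
    (hE : ∀ x : E, ∀ g : G, g • e (algebraMap E F x) = e (algebraMap E F x))
    (θ : F) (hθ : ∀ g : G, g • e θ = e θ → g ∈ H) :
    Module.Finite E F ∧ Module.finrank E F = Nat.card (G ⧸ H) :=
  finrank_eq_index (E := E) H e hinv
    (fun h hh => exists_preimage_of_invariant (E := E) e hfin hD5 h hh) hE θ hθ

end Frac

end Fermat.Agent.S24.H528
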