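import Fermat.Agent.S24.Mod.H997Bridge
import Fermat.Agent.S24.Deg.H528Frac
import Fermat.Agent.S24.Deg.H457_Alg

/-!
# S24 / M6-INT (helper528): the degree bound `[FF N : ℚ̄(j)] ≤ |SL₂(ℤ)/Γ₀(N)|` from `HolBase`

In helper997's framework (`H997.HolBase N`: a ring `Hol` of functions on `ℍ`, stable under
`SL(2,ℤ)`, with an injective expansion map `qexp` and the functions `J d`), we prove the two
hypotheses `hfd`, `hle` of `H997.AnalyticCore.modularPackage_fields` from

* `hfin` : every element of `Hol` has only finitely many `SL(2,ℤ)`-translates;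
* `hD5`  : every `SL(2,ℤ)`-invariant element of `Hol` is a polynomial in `J 1` (over `ℂ`).

Route: Artin's bound in `M = Frac Hol` (`H528.card_le_index_of_linearIndependent`), invariants
of `M` are quotients of invariants of `Hol` (`H528.exists_invariant_num_den`), and descent of
linear independence from `ℚ̄(j)` to `ℂ(J)` through `qexp` (`Deg457.linearIndependent_coeffMap`).
-/

set_option autoImplicit false

noncomputable section

open ModularCurve HahnSeries UpperHalfPlane IntermediateField
open scoped MatrixGroups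

namespace Fermat.Agent.S24.H528

open Fermat.Agent.S24.H997

variable {N : ℕ} [NeZero N] (B : HolBase N)

/-- `Hol` is a domain (it embeds into the field of Laurent series). -/
theorem isDomain_hol : IsDomain B.Hol :=
  Function.Injective.isDomain B.qexp B.qexp_injective

/-- The left action of `SL(2,ℤ)` on `Hol`: `(g • h) τ = h (g⁻¹ • τ)`. -/
@[instance_reducible]
def holAction : MulSemiringAction SL(2, ℤ) B.Hol where
  smul g h := B.compH g⁻¹ h
  one_smul h := by
    show B.compH (1 : SL(2, ℤ))⁻¹ h = h
    rw [inv_one, HolBase.compH_one]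
  mul_smul g g' h := by
    show B.compH (g * g')⁻¹ h = B.compH g⁻¹ (B.compH g'⁻¹ h)
    rw [mul_inv_rev, HolBase.compH_mul]
  smul_zero g := map_zero _
  smul_add g h h' := map_add _ h h'
  smul_one g := map_one _
  smul_mul g h h' := map_mul _ h h'

theorem holAction_smul_def (g : SL(2, ℤ)) (h : B.Hol) :
    letI := holAction B
    g • h = B.compH g⁻¹ h := rfl

section Formal

/-- Powers of a transcendental element are linearly independent. -/
theorem linearIndependent_pow_of_aeval_injective {K S : Type*} [Field K] [CommRing S]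
    [Algebra K S] (x : S) (hx : ∀ P : Polynomial K, Polynomial.aeval x P = 0 → P = 0) :
    LinearIndependent K (fun k : ℕ => x ^ k) := by
  have h1 : LinearIndependent K (fun k : ℕ => (Polynomial.monomial k (1 : K))) := by
    have := (Polynomial.basisMonomials K).linearIndependent
    rwa [Polynomial.coe_basisMonomials] at this
  have h2 := h1.map' (Polynomial.aeval x).toLinearMap (by
    rw [LinearMap.ker_eq_bot']
    intro P hP
    exact hx P hP)
  have h3 : ((Polynomial.aeval x).toLinearMap ∘ fun k : ℕ => (Polynomial.monomial k (1 : K)))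
      = fun k : ℕ => x ^ k := by
    funext k
    simp
  rwa [h3] at h2

set_option synthInstance.maxHeartbeats 200000 in
/-- `j` (as an element of `ℚ̄(j)`) is transcendental over `ℚ̄`. -/
theorem aeval_gen_eq_zero (P : Polynomial Kbar)
    (hP : Polynomial.aeval (AdjoinSimple.gen Kbar (jF N)) P = 0) : P = 0 := by
  by_contra hne
  apply Deg457.aeval_JK_ne_zero Kbar hne
  have h1 := congrArg (algebraMap ↥(IntermediateField.adjoin Kbar {jF N}) (FF N)) hP
  rw [← Polynomial.aeval_algebraMap_apply, map_zero, AdjoinSimple.algebraMap_gen] at h1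
  have h2 := congrArg (algebraMap (FF N) (LaurentSeries Kbar)) h1
  rw [← Polynomial.aeval_algebraMap_apply, map_zero] at h2
  exact h2

/-- `qExpand` as a `ℂ`-linear map. -/
def qExpandLin : LaurentSeries ℂ →ₗ[ℂ] LaurentSeries ℂ where
  toFun := qExpand ℂ N
  map_add' := map_add _
  map_smul' c x := by
    rw [RingHom.id_apply, ← HahnSeries.C_mul_eq_smul, ← HahnSeries.C_mul_eq_smul, map_mul,
      qExpand_C]

set_option synthInstance.maxHeartbeats 200000 in
/-- the inclusion `FF N → ℚ̄((q))` as a `ℚ̄`-linear map (for the `HahnSeries` module structure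
on the target). -/
def valLin : FF N →ₗ[Kbar] LaurentSeries Kbar where
  toFun x := (x : LaurentSeries Kbar)
  map_add' _ _ := rfl
  map_smul' c x := by
    show ((c • x : FF N) : LaurentSeries Kbar) = c • (x : LaurentSeries Kbar)
    rw [Deg457.hsmul_eq_algebraMap_mul, Algebra.smul_def]
    rfl

theorem valLin_apply (x : FF N) : valLin (N := N) x = (x : LaurentSeries Kbar) := rfl

theorem valLin_injective : Function.Injective (valLin (N := N)) :=
  fun _ _ h => Subtype.ext h

set_option synthInstance.maxHeartbeats 200000 in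
/-- `K`-linear independence of the products `j^k v_i` inside `FF N`. -/
theorem linearIndependent_pow_smul {ι : Type*} (v : ι → FF N)
    (hv : LinearIndependent ↥(IntermediateField.adjoin Kbar {jF N}) v) :
    LinearIndependent Kbar (fun p : ℕ × ι => (jF N) ^ p.1 * v p.2) := by
  have ha : LinearIndependent Kbar (fun k : ℕ => (AdjoinSimple.gen Kbar (jF N)) ^ k) :=
    linearIndependent_pow_of_aeval_injective _ (aeval_gen_eq_zero (N := N))
  have hb : LinearIndependent Kbar
      (fun p : ℕ × ι => (AdjoinSimple.gen Kbar (jF N)) ^ p.1 • v p.2) :=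
    linearIndependent_smul ha hv
  have heq : (fun p : ℕ × ι => (AdjoinSimple.gen Kbar (jF N)) ^ p.1 • v p.2)
      = fun p : ℕ × ι => (jF N) ^ p.1 * v p.2 := by
    funext p
    rw [Algebra.smul_def, map_pow, AdjoinSimple.algebraMap_gen]
  rwa [heq] at hb

/-- **Formal descent**: if `v i ∈ FF N` are linearly independent over `ℚ̄(j)`, then the
series `Φ(j^k v_i)` are linearly independent over `ℂ`. -/
theorem linearIndependent_Φ_pow_mul {ι : Type*} (v : ι → FF N)
    (hv : LinearIndependent ↥(IntermediateField.adjoin Kbar {jF N}) v) :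
    LinearIndependent ℂ (fun p : ℕ × ι =>
      HolBase.Φ N (((jF N : FF N) : LaurentSeries Kbar) ^ p.1 * (v p.2 : LaurentSeries Kbar))) := by
  have hb := linearIndependent_pow_smul v hv
  have hc := hb.map' (valLin (N := N)) (by
    rw [LinearMap.ker_eq_bot]
    exact valLin_injective)
  have hd := Deg457.linearIndependent_coeffMap ιK _ hc
  have he := hd.map' (qExpandLin (N := N)) (by
    rw [LinearMap.ker_eq_bot]
    exact qExpand_injective N)
  have heq : (⇑(qExpandLin (N := N)) ∘ fun i : ℕ × ι =>
        coeffMap ιK ((⇑(valLin (N := N)) ∘ fun p : ℕ × ι => (jF N) ^ p.1 * v p.2) i))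
      = fun p : ℕ × ι =>
      HolBase.Φ N (((jF N : FF N) : LaurentSeries Kbar) ^ p.1 * (v p.2 : LaurentSeries Kbar)) := by
    funext p
    rfl
  rwa [heq] at he

end Formal

section Frac

attribute [local instance] isDomain_hol holAction

/-- The induced action on the fraction field of `Hol`. -/
@[instance_reducible]
def fracAction : MulSemiringAction SL(2, ℤ) (FractionRing B.Hol) :=
  IsFractionRing.mulSemiringAction SL(2, ℤ) B.Hol (FractionRing B.Hol)

attribute [local instance] fracAction

theorem smulDistribClass_frac : SMulDistribClass SL(2, ℤ) B.Hol (FractionRing B.Hol) :=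
  IsFractionRing.smulDistribClass SL(2, ℤ) B.Hol (FractionRing B.Hol)

attribute [local instance] smulDistribClass_frac

/-- The embedding `R_N → Frac Hol`. -/
def sFrac : RN N →+* FractionRing B.Hol :=
  (algebraMap B.Hol (FractionRing B.Hol)).comp B.bridge

theorem sFrac_injective : Function.Injective (sFrac B) :=
  (IsFractionRing.injective B.Hol (FractionRing B.Hol)).comp B.bridge_injective

/-- The embedding `e : FF N → Frac Hol`. -/
def eFrac : FF N →+* FractionRing B.Hol := liftF (sFrac B) (sFrac_injective B)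

theorem eFrac_inclRN (r : RN N) :
    eFrac B (inclRN N r) = algebraMap B.Hol (FractionRing B.Hol) (B.bridge r) :=
  liftF_inclRN _ _ r

/-- `e f` is `Γ₀(N)`-invariant. -/
theorem smul_eFrac_of_mem (f : FF N) {g : SL(2, ℤ)} (hg : g ∈ CongruenceSubgroup.Gamma0 N) :
    g • eFrac B f = eFrac B f := by
  obtain ⟨r, t, -, rfl⟩ := exists_div_inclRN N f
  have key : ∀ r : RN N, g • eFrac B (inclRN N r) = eFrac B (inclRN N r) := by
    intro r
    rw [eFrac_inclRN, ← algebraMap.smul']
    congr 1
    exact B.compH_bridge_of_mem (inv_mem hg) r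
  rw [map_div₀, smul_div₀', key, key]

/-- The expansion map extended to `Frac Hol`. -/
def qexpFrac : FractionRing B.Hol →+* LaurentSeries ℂ :=
  IsFractionRing.lift (g := B.qexp) B.qexp_injective

theorem qexpFrac_algebraMap (h : B.Hol) :
    qexpFrac B (algebraMap B.Hol (FractionRing B.Hol) h) = B.qexp h :=
  IsFractionRing.lift_algebraMap _ h

/-- `qexp ∘ e = Φ` on `FF N`. -/
theorem qexpFrac_eFrac (f : FF N) :
    qexpFrac B (eFrac B f) = HolBase.Φ N (f : LaurentSeries Kbar) := by
  obtain ⟨r, t, -, rfl⟩ := exists_div_inclRN N f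
  have key : ∀ r : RN N, qexpFrac B (eFrac B (inclRN N r)) = HolBase.Φ N (r : LaurentSeries Kbar) := by
    intro r
    rw [eFrac_inclRN, qexpFrac_algebraMap, HolBase.qexp_bridge]
  rw [map_div₀, map_div₀, key, key]
  have : ((inclRN N r / inclRN N t : FF N) : LaurentSeries Kbar)
      = (r : LaurentSeries Kbar) / (t : LaurentSeries Kbar) := rfl
  rw [this, map_div₀]

/-- constants as a ring hom `ℂ → Hol` -/
def constHom : ℂ →+* B.Hol where
  toFun c := B.constH c
  map_one' := rfl
  map_mul' _ _ := rfl
  map_zero' := rfl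
  map_add' _ _ := rfl

/-- polynomials in `J = J 1` as elements of `Hol` -/
def polyJ : Polynomial ℂ →+* B.Hol :=
  Polynomial.eval₂RingHom (constHom B) (B.JH 1 (one_dvd N))

/-- evaluation at a point as a ring hom `Hol → ℂ` -/
def evalAt (τ : ℍ) : B.Hol →+* ℂ where
  toFun h := (h : ℍ → ℂ) τ
  map_one' := rfl
  map_mul' _ _ := rfl
  map_zero' := rfl
  map_add' _ _ := rfl

theorem polyJ_apply (P : Polynomial ℂ) (τ : ℍ) :
    ((polyJ B P : B.Hol) : ℍ → ℂ) τ = P.eval (B.J 1 τ) := by
  show evalAt B τ (Polynomial.eval₂ (constHom B) (B.JH 1 (one_dvd N)) P) = _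
  rw [Polynomial.hom_eval₂]
  have h1 : (evalAt B τ).comp (constHom B) = RingHom.id ℂ := by
    ext c
    rfl
  rw [h1, Polynomial.eval₂_id]
  rfl

theorem qexp_JH_one :
    B.qexp (B.JH 1 (one_dvd N)) = HolBase.Φ N ((jF N : FF N) : LaurentSeries Kbar) := by
  have h := B.Φ_gen 1 (one_dvd N)
  rw [qExpand_one_apply] at h
  exact h.symm

theorem qexp_polyJ (P : Polynomial ℂ) :
    B.qexp (polyJ B P) = Polynomial.eval₂ (HahnSeries.C : ℂ →+* LaurentSeries ℂ)
      (HolBase.Φ N ((jF N : FF N) : LaurentSeries Kbar)) P := by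
  show B.qexp (Polynomial.eval₂ (constHom B) (B.JH 1 (one_dvd N)) P) = _
  rw [Polynomial.hom_eval₂, qexp_JH_one]
  congr 1
  ext c : 1
  exact B.qexp_const c

end Frac

end Fermat.Agent.S24.H528
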