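import Fermat.Agent.S24.Deg.H528Hol

/-!
# S24 / M6-INT (helper528): the degree bound from `HolBase` — main argument

`finiteDimensional_and_finrank_le_of_holBase`: the hypotheses `hfd`, `hle` of
`H997.AnalyticCore.modularPackage_fields`.
-/

set_option autoImplicit false

noncomputable section

open ModularCurve HahnSeries UpperHalfPlane IntermediateField
open scoped MatrixGroups

namespace Fermat.Agent.S24.H528

open Fermat.Agent.S24.H997

variable {N : ℕ} [NeZero N] (B : HolBase N)

section Main

attribute [local instance] isDomain_hol holAction fracAction smulDistribClass_frac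

/-- invariance under the left action is invariance under all `compH g`. -/
theorem smul_eq_iff_compH (h : B.Hol) :
    (∀ g : SL(2, ℤ), g • h = h) ↔ ∀ g : SL(2, ℤ), B.compH g h = h := by
  constructor
  · intro H g
    have := H g⁻¹
    rwa [holAction_smul_def, inv_inv] at this
  · intro H g
    rw [holAction_smul_def]
    exact H g⁻¹

/-- the orbit under the left action is the set of translates. -/
theorem orbit_eq_range (h : B.Hol) :
    MulAction.orbit SL(2, ℤ) h = Set.range (fun g : SL(2, ℤ) => B.compH g h) := by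
  ext x
  constructor
  · rintro ⟨g, rfl⟩
    exact ⟨g⁻¹, rfl⟩
  · rintro ⟨g, rfl⟩
    exact ⟨g⁻¹, by show B.compH g⁻¹⁻¹ h = _; rw [inv_inv]⟩

variable (hfin : ∀ h : B.Hol, (Set.range (fun g : SL(2, ℤ) => B.compH g h)).Finite)
variable (hD5 : ∀ h : B.Hol, (∀ g : SL(2, ℤ), B.compH g h = h) →
    ∃ P : Polynomial ℂ, ∀ τ : ℍ, (h : ℍ → ℂ) τ = P.eval (B.J 1 τ))

include hfin hD5 in
/-- every invariant element of `Frac Hol` is a quotient of polynomials in `J`. -/
theorem exists_polyJ_of_invariant (c : FractionRing B.Hol) (hc : ∀ g : SL(2, ℤ), g • c = c) :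
    ∃ P Q : Polynomial ℂ, algebraMap B.Hol (FractionRing B.Hol) (polyJ B Q) ≠ 0 ∧
      c * algebraMap B.Hol (FractionRing B.Hol) (polyJ B Q)
        = algebraMap B.Hol (FractionRing B.Hol) (polyJ B P) := by
  have hfin' : ∀ a : B.Hol, (MulAction.orbit SL(2, ℤ) a).Finite := fun a => by
    rw [orbit_eq_range]; exact hfin a
  obtain ⟨a, b, hb0, ha, hb, rfl⟩ := exists_invariant_num_den hfin' c hc
  obtain ⟨P, hP⟩ := hD5 a ((smul_eq_iff_compH B a).1 ha)
  obtain ⟨Q, hQ⟩ := hD5 b ((smul_eq_iff_compH B b).1 hb)
  have haP : a = polyJ B P := by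
    apply Subtype.ext
    funext τ
    rw [hP τ, polyJ_apply]
  have hbQ : b = polyJ B Q := by
    apply Subtype.ext
    funext τ
    rw [hQ τ, polyJ_apply]
  have hbL : algebraMap B.Hol (FractionRing B.Hol) b ≠ 0 := by
    intro h0
    exact hb0 (IsFractionRing.injective B.Hol (FractionRing B.Hol) (by rw [h0, map_zero]))
  refine ⟨P, Q, by rwa [← hbQ], ?_⟩
  rw [← hbQ, ← haP, div_mul_cancel₀ _ hbL]

include hfin hD5 in
/-- **Descent of linear independence**: a family of `FF N` which is linearly independent over
`ℚ̄(j)` maps under `e` to a family which is linearly independent over the `SL(2,ℤ)`-invariants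
of `Frac Hol`. -/
theorem linearIndependent_eFrac {ι : Type*} (v : ι → FF N)
    (hv : LinearIndependent ↥(IntermediateField.adjoin Kbar {jF N}) v) :
    LinearIndependent (FixedPoints.subfield SL(2, ℤ) (FractionRing B.Hol))
      (fun i => eFrac B (v i)) := by
  classical
  rw [linearIndependent_iff']
  intro s c hc i hi
  -- write the coefficients as quotients of polynomials in `J`
  have hex : ∀ k : ι, ∃ P Q : Polynomial ℂ,
      algebraMap B.Hol (FractionRing B.Hol) (polyJ B Q) ≠ 0 ∧
      (c k : FractionRing B.Hol) * algebraMap B.Hol (FractionRing B.Hol) (polyJ B Q)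
        = algebraMap B.Hol (FractionRing B.Hol) (polyJ B P) :=
    fun k => exists_polyJ_of_invariant B hfin hD5 (c k) (c k).2
  choose P Q hQ hPQ using hex
  -- common denominator
  set D : Polynomial ℂ := ∏ k ∈ s, Q k with hDdef
  set R : ι → Polynomial ℂ := fun k => P k * ∏ l ∈ s.erase k, Q l with hRdef
  have hD : algebraMap B.Hol (FractionRing B.Hol) (polyJ B D) ≠ 0 := by
    rw [hDdef, map_prod, map_prod]
    exact Finset.prod_ne_zero_iff.2 (fun k _ => hQ k)
  have hR : ∀ k ∈ s, (c k : FractionRing B.Hol)
      * algebraMap B.Hol (FractionRing B.Hol) (polyJ B D)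
      = algebraMap B.Hol (FractionRing B.Hol) (polyJ B (R k)) := by
    intro k hk
    have hsplit : D = Q k * ∏ l ∈ s.erase k, Q l := (Finset.mul_prod_erase s Q hk).symm
    rw [hsplit, map_mul, map_mul, ← mul_assoc, hPQ k, ← map_mul, ← map_mul]
  -- the relation multiplied by the denominator
  have h1 : ∑ k ∈ s, algebraMap B.Hol (FractionRing B.Hol) (polyJ B (R k)) * eFrac B (v k)
      = 0 := by
    have hrew : ∑ k ∈ s, algebraMap B.Hol (FractionRing B.Hol) (polyJ B (R k)) * eFrac B (v k)
        = (∑ k ∈ s, c k • eFrac B (v k))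
          * algebraMap B.Hol (FractionRing B.Hol) (polyJ B D) := by
      rw [Finset.sum_mul]
      refine Finset.sum_congr rfl fun k hk => ?_
      rw [← hR k hk]
      show _ = ((c k : FractionRing B.Hol) * eFrac B (v k)) * _
      ring
    rw [hrew, hc, zero_mul]
  -- apply the expansion map
  have h2 := congrArg (qexpFrac B) h1
  rw [map_sum, map_zero] at h2
  simp only [map_mul, qexpFrac_algebraMap, qexp_polyJ, qexpFrac_eFrac] at h2
  -- expand as a double sum
  set n := (s.sup fun k => (R k).natDegree) + 1 with hn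
  have hdeg : ∀ k ∈ s, (R k).natDegree < n := by
    intro k hk
    have := Finset.le_sup (f := fun k => (R k).natDegree) hk
    omega
  have h3 : ∑ p ∈ Finset.range n ×ˢ s, (R p.2).coeff p.1 •
      HolBase.Φ N (((jF N : FF N) : LaurentSeries Kbar) ^ p.1 * (v p.2 : LaurentSeries Kbar))
      = 0 := by
    rw [Finset.sum_product_right, ← h2]
    refine Finset.sum_congr rfl fun k hk => ?_
    rw [Polynomial.eval₂_eq_sum_range' _ (hdeg k hk), Finset.sum_mul]
    refine Finset.sum_congr rfl fun m _ => ?_
    rw [map_mul, map_pow, ← HahnSeries.C_mul_eq_smul]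
    ring
  have h4 := linearIndependent_iff'.1 (linearIndependent_Φ_pow_mul v hv) _
    (fun p => (R p.2).coeff p.1) h3
  -- hence `R i = 0`
  have hRi : R i = 0 := by
    ext m
    rw [Polynomial.coeff_zero]
    by_cases hm : m < n
    · exact h4 (m, i) (Finset.mem_product.2 ⟨Finset.mem_range.2 hm, hi⟩)
    · apply Polynomial.coeff_eq_zero_of_natDegree_lt
      have := hdeg i hi
      omega
  -- conclude
  have h5 := hR i hi
  rw [hRi, map_zero, map_zero] at h5
  exact Subtype.ext ((mul_eq_zero.1 h5).resolve_right hD)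

include hfin hD5 in
/-- **Degree bound** (`hfd` and `hle` of `H997.AnalyticCore.modularPackage_fields`). -/
theorem finiteDimensional_and_finrank_le_of_holBase :
    FiniteDimensional ↥(IntermediateField.adjoin Kbar {jF N}) (FF N) ∧
      Module.finrank ↥(IntermediateField.adjoin Kbar {jF N}) (FF N) ≤ Nat.card (XX N) := by
  classical
  have hidx : (CongruenceSubgroup.Gamma0 N).index = Nat.card (XX N) := Subgroup.index_eq_card _
  have hrank : Module.rank ↥(IntermediateField.adjoin Kbar {jF N}) (FF N)
      ≤ ((Nat.card (XX N) : ℕ) : Cardinal) := by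
    refine rank_le fun s hs => ?_
    have hs' : LinearIndependent ↥(IntermediateField.adjoin Kbar {jF N})
        (fun x : (s : Set (FF N)) => (x : FF N)) := hs
    have h1 := linearIndependent_eFrac B hfin hD5 _ hs'
    have h2 := card_le_index_of_linearIndependent (CongruenceSubgroup.Gamma0 N)
      (fun x : (s : Set (FF N)) => eFrac B (x : FF N)) h1
      (fun x g hg => smul_eFrac_of_mem B _ hg)
    rw [hidx] at h2
    simpa using h2
  have : Module.Free ↥(IntermediateField.adjoin Kbar {jF N}) (FF N) :=
    Module.Free.of_divisionRing _ _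
  have hfd : Module.Finite ↥(IntermediateField.adjoin Kbar {jF N}) (FF N) :=
    Module.rank_lt_aleph0_iff.1 (hrank.trans_lt (Cardinal.natCast_lt_aleph0))
  exact ⟨hfd, Module.finrank_le_of_rank_le hrank⟩

end Main

end Fermat.Agent.S24.H528
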